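import Fermat.Agent.S48.Eis.Defs
import Fermat.Agent.S48.Eis.Ar.Iface

set_option autoImplicit false

open UpperHalfPlane hiding I
open Complex Real Filter Topology
open scoped MatrixGroups ModularForm Manifold

noncomputable section

namespace Fermat.Agent.S48.Eis

/-- `ZMod.stdAddChar ((k : ℤ) : ZMod N) = ζ_N^k` (`ZMod.stdAddChar_coe`, `Complex.exp_int_mul`...). -/
theorem stdAddChar_intCast (N : ℕ) [NeZero N] (k : ℤ) :
    ZMod.stdAddChar ((k : ℤ) : ZMod N) = zetaC N ^ k := by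
  rw [ZMod.stdAddChar_coe, zetaC, ← Complex.exp_int_mul]
  congr 1
  ring

/-- Comparison of the coefficients `cG` with helper85's `Ar.anCoeff`.
`n = 0`: with `u = ζ^a ≠ 1`: `πi (u+1)/(u-1) / (-2πi) = (1+u)/(2(1-u)) = 1/2 + u/(1-u)`.
`n ≠ 0`: termwise by `stdAddChar_intCast` (`a * r = ((a.val * r : ℤ) : ZMod N)`). -/
theorem anCoeff_eq (N : ℕ) [NeZero N] (a : ZMod N) (ha : a ≠ 0) (n : ℕ) :
    Ar.anCoeff N a n = (-(2 * π * I))⁻¹ * cG N (a.val : ℤ) n := by
  have hpi : (2 * (π : ℂ) * I) ≠ 0 := by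
    simp [Real.pi_ne_zero, Complex.I_ne_zero]
  have hpi' : (π : ℂ) ≠ 0 := by exact_mod_cast Real.pi_ne_zero
  have hcast : (((a.val : ℕ) : ℤ) : ZMod N) = a := by
    push_cast
    exact ZMod.natCast_zmod_val a
  have hu : (ZMod.stdAddChar a : ℂ) = zetaC N ^ ((a.val : ℕ) : ℤ) := by
    rw [← stdAddChar_intCast, hcast]
  unfold Ar.anCoeff cG
  split_ifs with hn
  · have hu1 : (ZMod.stdAddChar a : ℂ) ≠ 1 := by
      intro h
      rw [← AddChar.map_zero_eq_one (ZMod.stdAddChar (N := N))] at h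
      exact ha (ZMod.injective_stdAddChar h)
    rw [← hu]
    have h1 : (1 - (ZMod.stdAddChar a : ℂ)) ≠ 0 := sub_ne_zero.2 (Ne.symm hu1)
    have h2 : ((ZMod.stdAddChar a : ℂ) - 1) ≠ 0 := sub_ne_zero.2 hu1
    field_simp
    ring
  · rw [← mul_assoc, inv_mul_cancel₀ (neg_ne_zero.2 hpi), one_mul]
    refine Finset.sum_congr rfl fun r _ => ?_
    rw [← stdAddChar_intCast, ← stdAddChar_intCast]
    push_cast
    rw [ZMod.natCast_zmod_val]

end Fermat.Agent.S48.Eis
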