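import Fermat.Agent.S48.Eis.Defs

set_option autoImplicit false

open UpperHalfPlane hiding I
open Complex Real Filter Topology
open scoped MatrixGroups ModularForm Manifold

noncomputable section

namespace Fermat.Agent.S48.Eis

open Function in
theorem mdiff_aux_punctured {f : ℍ → ℂ} {c : ℕ → ℂ}
    (hf : ∀ (τ : ℍ), HasSum (fun m ↦ c m • Periodic.qParam 1 τ ^ m) (f τ)) {q : ℂ} (hq : ‖q‖ < 1)
    (hq1 : q ≠ 0) : HasSum (fun m ↦ c m • q ^ m) (cuspFunction 1 f q) := by
  have h1 := Periodic.im_invQParam_pos_of_norm_lt_one one_pos hq hq1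
  let τ : ℍ := ⟨Periodic.invQParam 1 q, h1⟩
  have h2 := (Periodic.cuspFunction_eq_of_nonzero 1 (f ∘ ofComplex) hq1)
  have h3 : cuspFunction 1 f q = f τ := by
    simpa [UpperHalfPlane.ofComplex_apply_of_im_pos h1] using! h2
  have h4 : Periodic.qParam 1 (τ : ℂ) = q := Periodic.qParam_right_inv one_ne_zero hq1
  have h5 := hf τ
  rw [h4] at h5
  rw [h3]
  exact h5

open Function in
theorem mdiff_aux_update {f : ℍ → ℂ} {c : ℕ → ℂ}
    (hf : ∀ τ : ℍ, HasSum (fun m : ℕ ↦ (c m) • Periodic.qParam 1 τ ^ m) (f τ)) :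
    HasFPowerSeriesOnBall (update (cuspFunction 1 f) 0 (c 0)) (.ofScalars ℂ c) 0 1 := by
  constructor
  · refine le_of_forall_lt_imp_le_of_dense fun r hr ↦ ?_
    rcases eq_or_ne r 0 with rfl | hr'
    · simp
    · lift r to NNReal using hr.ne_top
      let : FiniteDimensional ℝ ℂ := basisOneI.finiteDimensional_of_finite
      apply FormalMultilinearSeries.le_radius_of_summable
      simpa [smul_eq_mul, norm_mul, mul_comm, mul_left_comm, mul_assoc] using
        (mdiff_aux_punctured hf (q := r) (by simpa using hr)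
          (mod_cast hr')).summable.norm
  · simp
  · intro y hy
    rw [← ENNReal.coe_one, Metric.eball_coe, NNReal.coe_one, mem_ball_zero_iff] at hy
    rcases eq_or_ne y 0 with rfl | hy'
    · simpa +contextual [zero_pow_eq] using hasSum_ite_eq 0 (c 0)
    · simpa [update_of_ne hy', mul_comm]
        using mdiff_aux_punctured hf hy hy'

/-- A function on `ℍ` given everywhere by a convergent `q`-expansion is holomorphic.
Proof: every `q` with `0 < ‖q‖ < 1` is `qParam 1 τ` for some `τ ∈ ℍ`
(`Function.Periodic.invQParam`, `im_invQParam_pos_of_norm_lt_one`, `qParam_right_inv`), so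
`∑ c n q^n` converges on the open unit disc, hence `FormalMultilinearSeries.ofScalars ℂ c` has
radius `≥ 1` and its sum `F` is analytic on the disc; `f = F ∘ qParam 1 ∘ (↑)`.  See the (private)
lemmas `hasFPowerSeriesOnBall_update` and the proof of `isBoundedAtImInfty_of_hasSum_qExpansion` in
`Mathlib/NumberTheory/ModularForms/QExpansion.lean` (copy them), and
`UpperHalfPlane.mdifferentiable_iff`. -/
theorem mdiff_of_hasSum (f : ℍ → ℂ) (c : ℕ → ℂ)
    (hf : ∀ τ : ℍ, HasSum (fun n : ℕ => c n • Function.Periodic.qParam 1 τ ^ n) (f τ)) :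
    MDiff f := by
  rw [UpperHalfPlane.mdifferentiable_iff]
  set G := Function.update (cuspFunction 1 f) 0 (c 0) with hG
  have hGd : DifferentiableOn ℂ G (Metric.ball 0 1) := by
    have := (mdiff_aux_update hf).differentiableOn
    rwa [← ENNReal.coe_one, Metric.eball_coe, NNReal.coe_one] at this
  have hq : DifferentiableOn ℂ (Function.Periodic.qParam 1) {z : ℂ | 0 < z.im} :=
    (Function.Periodic.differentiable_qParam).differentiableOn
  have hmaps : Set.MapsTo (Function.Periodic.qParam 1) {z : ℂ | 0 < z.im} (Metric.ball 0 1) := by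
    intro z hz
    rw [mem_ball_zero_iff]
    exact Function.Periodic.norm_qParam_lt_one one_pos hz
  refine (hGd.comp hq hmaps).congr (fun z hz => ?_)
  have hz' : 0 < z.im := hz
  simp only [Function.comp_apply]
  rw [UpperHalfPlane.ofComplex_apply_of_im_pos hz', hG,
    Function.update_of_ne (Function.Periodic.qParam_ne_zero _)]
  exact (hf ⟨z, hz'⟩).unique (mdiff_aux_punctured hf
    (Function.Periodic.norm_qParam_lt_one one_pos hz') (Function.Periodic.qParam_ne_zero _))

end Fermat.Agent.S48.Eis
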