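import Fermat.Agent.S48.Eis.Defs

set_option autoImplicit false

open UpperHalfPlane hiding I
open Complex Real Filter Topology
open scoped MatrixGroups ModularForm Manifold

noncomputable section

namespace Fermat.Agent.S48.Eis

/-- `a γ` is nonzero mod `N` if `a` is.  With `γ = (p q; c d)`, `b = aγ = (a₀p + a₁c, a₀q + a₁d)`:
`a₀ = b₀ d - b₁ c` and `a₁ = -b₀ q + b₁ p` because `p d - q c = 1`
(`Matrix.det_fin_two`, `γ.det_coe`; `Matrix.vecMul`, `Matrix.vec2_dotProduct` / `simp [Matrix.vecMul,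
dotProduct, Fin.sum_univ_two]`). -/
theorem NZ_vecMul (N : ℕ) (a : Fin 2 → ℤ) (ha : NZ N a) (γ : SL(2, ℤ)) :
    NZ N (Matrix.vecMul a (γ : Matrix (Fin 2) (Fin 2) ℤ)) := by
  intro h
  apply ha
  have hdet := γ.det_coe
  rw [Matrix.det_fin_two] at hdet
  simp only [Matrix.vecMul, Matrix.vec2_dotProduct] at h
  obtain ⟨h0, h1⟩ := h
  constructor
  · have : a 0 = (a 0 * γ 0 0 + a 1 * γ 1 0) * γ 1 1 - (a 0 * γ 0 1 + a 1 * γ 1 1) * γ 1 0 := by
      linear_combination (-(a 0)) * hdet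
    rw [this]
    exact dvd_sub (Dvd.dvd.mul_right h0 _) (Dvd.dvd.mul_right h1 _)
  · have : a 1 = (a 0 * γ 0 1 + a 1 * γ 1 1) * γ 0 0 - (a 0 * γ 0 0 + a 1 * γ 1 0) * γ 0 1 := by
      linear_combination (-(a 1)) * hdet
    rw [this]
    exact dvd_sub (Dvd.dvd.mul_right h1 _) (Dvd.dvd.mul_right h0 _)

theorem not_dvd_val {N : ℕ} [NeZero N] (x : ZMod N) (hx : x ≠ 0) : ¬ (N : ℤ) ∣ (x.val : ℤ) := by
  intro h
  apply hx
  have h' : N ∣ x.val := by exact_mod_cast h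
  have := (ZMod.natCast_eq_zero_iff x.val N).mpr h'
  simpa using this

theorem NZ_val {N : ℕ} [NeZero N] (x : ZMod N) (hx : x ≠ 0) : NZ N ![0, (x.val : ℤ)] := by
  intro h
  exact not_dvd_val x hx (by simpa using h.2)

end Fermat.Agent.S48.Eis
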