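import Fermat.Agent.S48.Eis.Gv.Slash
import Fermat.Agent.S48.Eis.Gv.Bdd
import Fermat.Agent.S48.Eis.Form.NZ

set_option autoImplicit false

open UpperHalfPlane hiding I
open Complex Real Filter Topology
open scoped MatrixGroups ModularForm Manifold

noncomputable section

namespace Fermat.Agent.S48.Eis

/-- **Action of `Γ₀(N)`.**  For `γ = (p q; c d) ∈ Γ₀(N)` (`CongruenceSubgroup.Gamma0_mem`: `(c : ZMod N) = 0`):
`(0,x) γ = (x c, x d) ≡ (0, (x d).val) mod N`; `Gv_slash` then `Gv_congr` (with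
`a = ![0, (x d).val]`, which is `NZ` because `x d ≠ 0`: `d` is a unit mod `N` as `p d ≡ 1`). -/
theorem Gv_slash_Gamma0 {N : ℕ} [NeZero N] (x : ZMod N) (hx : x ≠ 0) (γ : SL(2, ℤ))
    (hγ : γ ∈ CongruenceSubgroup.Gamma0 N) :
    Gv N ![0, (x.val : ℤ)] ∣[(1 : ℤ)] γ =
      Gv N ![0, ((x * ((γ 1 1 : ℤ) : ZMod N)).val : ℤ)] := by
  have hc : ((γ 1 0 : ℤ) : ZMod N) = 0 := by
    simpa [CongruenceSubgroup.Gamma0_mem] using hγ
  have hd : x * ((γ 1 1 : ℤ) : ZMod N) ≠ 0 := by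
    intro h0
    have hdet := γ.det_coe
    rw [Matrix.det_fin_two] at hdet
    have h1 : ((γ 0 0 : ℤ) : ZMod N) * ((γ 1 1 : ℤ) : ZMod N) = 1 := by
      have := congrArg (fun t : ℤ => (t : ZMod N)) hdet
      simpa [hc] using this
    apply hx
    calc x = x * (((γ 0 0 : ℤ) : ZMod N) * ((γ 1 1 : ℤ) : ZMod N)) := by rw [h1, mul_one]
      _ = (x * ((γ 1 1 : ℤ) : ZMod N)) * ((γ 0 0 : ℤ) : ZMod N) := by ring
      _ = 0 := by rw [h0, zero_mul]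
  rw [Gv_slash]
  refine Gv_congr N _ _ (NZ_val _ hd) ?_ ?_
  · simp only [Matrix.vecMul, Matrix.vec2_dotProduct]
    simp only [Matrix.cons_val_zero, Matrix.cons_val_one, zero_mul, zero_add, sub_zero]
    exact Dvd.dvd.mul_left ((ZMod.intCast_zmod_eq_zero_iff_dvd _ N).mp hc) _
  · simp only [Matrix.vecMul, Matrix.vec2_dotProduct]
    simp only [Matrix.cons_val_zero, Matrix.cons_val_one, zero_mul, zero_add]
    rw [← ZMod.intCast_zmod_eq_zero_iff_dvd]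
    simp

/-- Special case `γ ∈ Γ₁(N)` (`d ≡ 1`; `CongruenceSubgroup.Gamma1_mem`,
`CongruenceSubgroup.Gamma1_in_Gamma0`). -/
theorem Gv_slash_Gamma1 {N : ℕ} [NeZero N] (x : ZMod N) (hx : x ≠ 0) (γ : SL(2, ℤ))
    (hγ : γ ∈ CongruenceSubgroup.Gamma1 N) :
    Gv N ![0, (x.val : ℤ)] ∣[(1 : ℤ)] γ = Gv N ![0, (x.val : ℤ)] := by
  rw [Gv_slash_Gamma0 x hx γ (CongruenceSubgroup.Gamma1_in_Gamma0 N hγ)]
  have hd : ((γ 1 1 : ℤ) : ZMod N) = 1 := ((CongruenceSubgroup.Gamma1_mem N γ).mp hγ).2.1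
  rw [hd, mul_one]

/-- Bounded at every cusp: `Gv_slash`, `Gv_bdd`, `NZ_vecMul`, `NZ_val`. -/
theorem Gv_slash_bdd {N : ℕ} [NeZero N] (x : ZMod N) (hx : x ≠ 0) (γ : SL(2, ℤ)) :
    IsBoundedAtImInfty (Gv N ![0, (x.val : ℤ)] ∣[(1 : ℤ)] γ) := by
  rw [Gv_slash]
  exact Gv_bdd N _ (NZ_vecMul N _ (NZ_val x hx) γ)

end Fermat.Agent.S48.Eis
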