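import Fermat.Agent.S48.Eis.Gv.QExp
import Fermat.Agent.S48.Eis.Form.MDiff
import Fermat.Agent.S48.Eis.Form.Slash

set_option autoImplicit false

open UpperHalfPlane hiding I
open Complex Real Filter Topology
open scoped MatrixGroups ModularForm Manifold

noncomputable section

namespace Fermat.Agent.S48.Eis

/-- `G_{(0,x)}` as a modular form of weight one on `Γ₁(N)` (pattern: Mathlib's
`ModularForm.eisensteinSeriesMF`: `slash_action_eq'` from `Gv_slash_Gamma1` (elements of
`(Gamma1 N : Subgroup (GL (Fin 2) ℝ))` are images `mapGL ℝ γ`, `Subgroup.mem_map`, and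
`ModularForm.SL_slash`), `holo'` from `mdiff_of_hasSum` + `Gv_hasSum`, `bdd_at_cusps'` from
`Subgroup.IsArithmetic.isCusp_iff_isCusp_SL2Z`, `OnePoint.isBoundedAt_iff_forall_SL2Z`,
`Gv_slash_bdd`). -/
theorem exists_GMF {N : ℕ} [NeZero N] (x : ZMod N) (hx : x ≠ 0) :
    ∃ E : ModularForm (CongruenceSubgroup.Gamma1 N) 1, ∀ τ : ℍ, E τ = Gv N ![0, (x.val : ℤ)] τ := by
  refine ⟨{ toFun := Gv N ![0, (x.val : ℤ)]
            slash_action_eq' := ?_
            holo' := ?_
            bdd_at_cusps' := ?_ }, fun τ => rfl⟩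
  · intro A hA
    obtain ⟨γ, hγ, rfl⟩ := hA
    have := Gv_slash_Gamma1 x hx γ hγ
    simpa [Matrix.SpecialLinearGroup.mapGL, ← ModularForm.SL_slash] using this
  · exact mdiff_of_hasSum _ _ (fun τ => Gv_hasSum N (x.val : ℤ) (not_dvd_val x hx) τ)
  · intro c hc
    rw [Subgroup.IsArithmetic.isCusp_iff_isCusp_SL2Z] at hc
    rw [OnePoint.isBoundedAt_iff_forall_SL2Z hc]
    exact fun γ _ => Gv_slash_bdd x hx γ

end Fermat.Agent.S48.Eis
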